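import Mathlib
import Fermat.Agent.S30.Algebra.CompleteDVRExt
import Fermat.Prelude.Def_GaloisRep_Residual

/-!
# PROJECT R (S43): the coefficient ring `𝒪`

For every prime `p` there is a complete discrete valuation ring `𝒪` of characteristic `0` with
finite residue field `k`, `p ∈ 𝔪_𝒪`, finite over `ℤ_[p]`, containing a primitive `p`-th root of
unity, and such that every monic quadratic polynomial with coefficients in the prime field splits
in `k` (so `k ⊇ 𝔽_{p²}`: the hypothesis `hsplit` of the frozen S56 holds for every base change to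
`k` of a two-dimensional representation over `𝔽_p`).

Construction: `𝒪` is the integral closure of `ℤ_[p]` in the splitting field `L` over `ℚ_[p]` of
`(X ^ p - 1) * ∏_{0 ≤ a, b < p} (X ^ 2 + a X + b)`, through main's
`S30/Algebra/CompleteDVRExt.exists_completeDVR_ext`.

* `exists_coeffRing` : the bundle;
* `QuadSplit k` : every `X ^ 2 + a X + b`, `a b : ℤ`, splits in `k`;
* `charP_residueField`, `sub_one_mem_maximalIdeal` : `ζ ^ p ^ n = 1 → ζ - 1 ∈ 𝔪`;
* `hsplit_baseChange` : the literal `hsplit` of S56 for `ρ₀.baseChange k` from `QuadSplit k`.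
-/

set_option autoImplicit false
set_option linter.unusedSectionVars false

noncomputable section

namespace Fermat.Agent.S43.Coeff.Ring

open Polynomial IsLocalRing

/-- every monic quadratic with coefficients in the prime ring splits in `k` -/
def QuadSplit (k : Type*) [Field k] : Prop :=
  ∀ a b : ℤ, ∃ α β : k,
    (X ^ 2 + C (a : k) * X + C (b : k) : k[X]) = (X - C α) * (X - C β)

/-! ### The splitting field -/

section Field

variable (p : ℕ) [Fact p.Prime]

/-- the quadratic `X ^ 2 + a X + b` over `ℚ_[p]` -/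
def quad (a b : ℕ) : ℚ_[p][X] := X ^ 2 + (C (a : ℚ_[p]) * X + C (b : ℚ_[p]))

/-- the polynomial whose splitting field over `ℚ_[p]` we take -/
def poly : ℚ_[p][X] :=
  (X ^ p - 1) * ∏ a ∈ Finset.range p, ∏ b ∈ Finset.range p, quad p a b

theorem quad_monic (a b : ℕ) : (quad p a b).Monic :=
  monic_X_pow_add (lt_of_le_of_lt degree_linear_le (by norm_num))

theorem quad_natDegree (a b : ℕ) : (quad p a b).natDegree = 2 := by
  unfold quad
  rw [natDegree_add_eq_left_of_degree_lt, natDegree_X_pow]
  rw [degree_X_pow]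
  exact lt_of_le_of_lt degree_linear_le (by norm_num)

theorem poly_monic : (poly p).Monic := by
  unfold poly
  refine Monic.mul ?_ (monic_prod_of_monic _ _ fun a _ => monic_prod_of_monic _ _ fun b _ =>
    quad_monic p a b)
  have h := monic_X_pow_sub_C (1 : ℚ_[p]) (Fact.out : p.Prime).ne_zero
  rwa [C_1] at h

theorem quad_dvd_poly {a b : ℕ} (ha : a < p) (hb : b < p) : quad p a b ∣ poly p := by
  unfold poly
  refine Dvd.dvd.mul_left ?_ _
  refine dvd_trans ?_ (Finset.dvd_prod_of_mem _ (Finset.mem_range.mpr ha))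
  exact Finset.dvd_prod_of_mem _ (Finset.mem_range.mpr hb)

theorem cyclotomic_dvd_poly : cyclotomic p ℚ_[p] ∣ poly p := by
  unfold poly
  exact Dvd.dvd.mul_right (cyclotomic.dvd_X_pow_sub_one p ℚ_[p]) _

/-- the splitting field -/
abbrev L : Type := (poly p).SplittingField

theorem splits_of_dvd {g : ℚ_[p][X]} (hg : g ∣ poly p) :
    (g.map (algebraMap ℚ_[p] (L p))).Splits := by
  refine Splits.of_dvd (SplittingField.splits (poly p)) ?_ (Polynomial.map_dvd _ hg)
  exact ((poly_monic p).map _).ne_zero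

/-- a root of `X ^ 2 + a X + b` in `L`, `0 ≤ a, b < p` -/
theorem exists_root_quad {a b : ℕ} (ha : a < p) (hb : b < p) :
    ∃ r : L p, r ^ 2 + (a : L p) * r + (b : L p) = 0 := by
  have hs := splits_of_dvd p (quad_dvd_poly p ha hb)
  have hd : ((quad p a b).map (algebraMap ℚ_[p] (L p))).degree ≠ 0 := by
    rw [degree_map, degree_eq_natDegree (quad_monic p a b).ne_zero, quad_natDegree]
    norm_num
  obtain ⟨r, hr⟩ := hs.exists_eval_eq_zero hd
  refine ⟨r, ?_⟩
  rw [eval_map, quad] at hr
  simpa [eval₂_add, eval₂_mul, eval₂_pow, add_assoc] using hr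

/-- a primitive `p`-th root of unity in `L` -/
theorem exists_primitiveRoot : ∃ ζ : L p, IsPrimitiveRoot ζ p := by
  have hp : p.Prime := Fact.out
  have hs := splits_of_dvd p (cyclotomic_dvd_poly p)
  have hd : ((cyclotomic p ℚ_[p]).map (algebraMap ℚ_[p] (L p))).degree ≠ 0 := by
    rw [degree_map]
    exact (degree_cyclotomic_pos p ℚ_[p] hp.pos).ne'
  obtain ⟨ζ, hζ⟩ := hs.exists_eval_eq_zero hd
  rw [map_cyclotomic] at hζ
  have : CharZero (L p) := charZero_of_injective_algebraMap (algebraMap ℚ_[p] (L p)).injective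
  have : NeZero p := ⟨hp.ne_zero⟩
  exact ⟨ζ, (isRoot_cyclotomic_iff (R := L p)).mp hζ⟩

end Field

/-! ### Integrality -/

theorem isIntegral_of_quad {R S : Type*} [CommRing R] [CommRing S] [Algebra R S] (a b : ℕ)
    {r : S} (h : r ^ 2 + (a : S) * r + (b : S) = 0) : IsIntegral R r := by
  refine ⟨X ^ 2 + (C (a : R) * X + C (b : R)),
    monic_X_pow_add (lt_of_le_of_lt degree_linear_le (by norm_num)), ?_⟩
  simpa [eval₂_add, eval₂_mul, eval₂_pow, add_assoc] using h

/-! ### The bundle -/

/-- **THE COEFFICIENT RING.** -/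
theorem exists_coeffRing (p : ℕ) [Fact p.Prime] :
    ∃ (O : Type) (_ : CommRing O) (_ : IsDomain O) (_ : IsDiscreteValuationRing O)
      (_ : IsAdicComplete (maximalIdeal O) O) (_ : Finite (ResidueField O)) (_ : CharZero O)
      (_ : Algebra ℤ_[p] O) (_ : Module.Finite ℤ_[p] O) (_ : IsLocalHom (algebraMap ℤ_[p] O)),
      Function.Injective (algebraMap ℤ_[p] O) ∧ (p : O) ∈ maximalIdeal O ∧
      (∃ ζ : O, IsPrimitiveRoot ζ p) ∧ QuadSplit (ResidueField O) := by
  have hp : p.Prime := Fact.out
  have : Finite (ResidueField ℤ_[p]) :=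
    Finite.of_equiv _ (PadicInt.residueField (p := p)).symm.toEquiv
  obtain ⟨O, iCR, iDom, iDVR, iAC, iFin, iCZ, iAlg, iMF, iLH, iAlgL, iST, iFR, hinj, hlift⟩ :=
    Fermat.Agent.S30.Algebra.CompleteDVRExt.exists_completeDVR_ext ℤ_[p] ℚ_[p] (L p)
  have hinjL : Function.Injective (algebraMap O (L p)) := IsFractionRing.injective O (L p)
  have hpm : (p : O) ∈ maximalIdeal O := by
    have h1 : (p : ℤ_[p]) ∈ maximalIdeal ℤ_[p] := by
      rw [PadicInt.maximalIdeal_eq_span_p]
      exact Ideal.mem_span_singleton_self _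
    have h2 := map_nonunit (algebraMap ℤ_[p] O) (p : ℤ_[p]) h1
    rwa [map_natCast] at h2
  refine ⟨O, iCR, iDom, iDVR, iAC, iFin, iCZ, iAlg, iMF, iLH, hinj, hpm, ?_, ?_⟩
  · -- the root of unity
    obtain ⟨ζ, hζ⟩ := exists_primitiveRoot p
    have hint : IsIntegral ℤ_[p] ζ := by
      refine IsIntegral.of_pow hp.pos ?_
      rw [hζ.pow_eq_one]
      exact isIntegral_one
    obtain ⟨y, hy⟩ := hlift ζ hint
    refine ⟨y, IsPrimitiveRoot.of_map_of_injective (f := algebraMap O (L p)) ?_ hinjL⟩
    rw [hy]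
    exact hζ
  · -- the quadratics
    intro a b
    have hpk : ((p : ℕ) : ResidueField O) = 0 := by
      have := (residue_eq_zero_iff (p : O)).mpr hpm
      rwa [map_natCast] at this
    have hp0 : (0 : ℤ) < p := by exact_mod_cast hp.pos
    -- reduce the coefficients
    have hred : ∀ c : ℤ, ∃ c' : ℕ, c' < p ∧ (c : ResidueField O) = (c' : ResidueField O) := by
      intro c
      refine ⟨(c % p).toNat, ?_, ?_⟩
      · have h1 : c % p < p := Int.emod_lt_of_pos c hp0
        have h2 : 0 ≤ c % p := Int.emod_nonneg c hp0.ne'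
        omega
      · have h2 : 0 ≤ c % p := Int.emod_nonneg c hp0.ne'
        have h3 : ((c % p).toNat : ℤ) = c % p := Int.toNat_of_nonneg h2
        have h4 : c = p * (c / p) + ((c % p).toNat : ℤ) := by
          rw [h3]; exact (Int.mul_ediv_add_emod c p).symm
        conv_lhs => rw [h4]
        push_cast
        rw [hpk, zero_mul, zero_add]
    obtain ⟨a', ha', haa⟩ := hred a
    obtain ⟨b', hb', hbb⟩ := hred b
    obtain ⟨r, hr⟩ := exists_root_quad p ha' hb'
    obtain ⟨y, hy⟩ := hlift r (isIntegral_of_quad a' b' hr)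
    have hyrel : y ^ 2 + (a' : O) * y + (b' : O) = 0 := by
      apply hinjL
      rw [map_add, map_add, map_mul, map_pow, map_natCast, map_natCast, hy, hr, map_zero]
    set α : ResidueField O := residue O y with hα
    have hrel : α ^ 2 + (a' : ResidueField O) * α + (b' : ResidueField O) = 0 := by
      have h := congrArg (residue O) hyrel
      rwa [map_add, map_add, map_mul, map_pow, map_natCast, map_natCast, map_zero] at h
    refine ⟨α, -(a' : ResidueField O) - α, ?_⟩
    rw [haa, hbb]
    have hb2 : (b' : ResidueField O) = α * (-(a' : ResidueField O) - α) := by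
      linear_combination hrel
    have ha2 : (a' : ResidueField O) = -(α + (-(a' : ResidueField O) - α)) := by ring
    conv_lhs => rw [hb2, ha2]
    simp only [map_neg, map_add, map_mul, map_sub]
    ring

/-! ### Roots of unity of `p`-power order are `≡ 1` modulo the maximal ideal -/

theorem charP_residueField {O : Type*} [CommRing O] [IsLocalRing O] {p : ℕ} [Fact p.Prime]
    (hp : (p : O) ∈ maximalIdeal O) : CharP (ResidueField O) p := by
  refine (CharP.charP_iff_prime_eq_zero Fact.out).mpr ?_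
  have := (residue_eq_zero_iff (p : O)).mpr hp
  rwa [map_natCast] at this

/-- `ζ ^ p ^ n = 1` and `p ∈ 𝔪` imply `ζ - 1 ∈ 𝔪` -/
theorem sub_one_mem_maximalIdeal {O : Type*} [CommRing O] [IsLocalRing O] {p : ℕ}
    [Fact p.Prime] (hp : (p : O) ∈ maximalIdeal O) {ζ : O} {n : ℕ} (h : ζ ^ p ^ n = 1) :
    ζ - 1 ∈ maximalIdeal O := by
  have : CharP (ResidueField O) p := charP_residueField hp
  rw [← residue_eq_zero_iff, map_sub, map_one]
  have h1 : (residue O ζ - 1) ^ p ^ n = 0 := by
    rw [sub_pow_char_pow, one_pow, ← map_pow, h, map_one, sub_self]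
  exact pow_eq_zero_iff (pow_ne_zero n (Fact.out : p.Prime).ne_zero) |>.mp h1

/-! ### `hsplit` of S56 -/

section Hsplit

variable {p : ℕ} [Fact p.Prime] {k : Type} [Field k] [Algebra (ZMod p) k]

/-- the literal `hsplit` of the frozen S56 for a base change `ρ₀.baseChange k`,
`ρ₀ : ResidualGaloisRep (ZMod p)`, when every quadratic over the prime field splits in `k` -/
theorem hsplit_baseChange (hk : QuadSplit k) (ρ₀ : ResidualGaloisRep (ZMod p))
    (σ : AlgebraicClosure ℚ ≃ₐ[ℚ] AlgebraicClosure ℚ) :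
    ∃ α β : k, LinearMap.charpoly ((ρ₀.baseChange k).ρ σ) = (X - C α) * (X - C β) := by
  have h1 : LinearMap.charpoly ((ρ₀.baseChange k).ρ σ) =
      (LinearMap.charpoly (ρ₀.ρ σ)).map (algebraMap (ZMod p) k) :=
    LinearMap.charpoly_baseChange (ρ₀.ρ σ) k
  set g := LinearMap.charpoly (ρ₀.ρ σ) with hg
  have hgm : g.Monic := LinearMap.charpoly_monic _
  have hgd : g.natDegree = 2 := by
    rw [hg, LinearMap.charpoly_natDegree, ρ₀.finrank_eq]
  have hsum : g = X ^ 2 + C (g.coeff 1) * X + C (g.coeff 0) := by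
    have h := hgm.as_sum
    rw [hgd, Finset.sum_range_succ, Finset.sum_range_one, pow_zero, mul_one, pow_one] at h
    rw [h]
    simp only [coeff_add, coeff_X_pow, coeff_C_mul, coeff_C, coeff_X]
    norm_num
    ring
  obtain ⟨α, β, hαβ⟩ := hk ((g.coeff 1).val : ℤ) ((g.coeff 0).val : ℤ)
  refine ⟨α, β, ?_⟩
  rw [h1, ← hαβ, hsum]
  simp only [Polynomial.map_add, Polynomial.map_mul, Polynomial.map_pow, map_X, map_C,
    Int.cast_natCast]
  rw [← map_natCast (algebraMap (ZMod p) k), ← map_natCast (algebraMap (ZMod p) k),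
    ZMod.natCast_zmod_val, ZMod.natCast_zmod_val]
  simp

end Hsplit

end Fermat.Agent.S43.Coeff.Ring
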